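import Mathlib
import Fermat.Agent.LT.T7.H57.FoldSpec

/-!
# Row LT, tower T7, node T7.14 `RigidC`, leaf T7.14.6a-F.2 `ParsBddC57` (registry 1912) -- helper189

OFF-MAIN.  `parsBddC_of_parseval189 K : ParsevalC57 K → ParsBddC57 K`, VERBATIM against
`LT/T7/H57/FoldSpec.lean` (helper57@bf22be140, sha256 `cb77c17ea9a53933`).

`|W₁ W̄₁'| ≤ (|W₁|² + |W₁'|²) / 2`, and `ParsevalC57` for the pairs `(φ₁, φ₁)`, `(φ₁', φ₁')` gives
`∑_α |W(torK α g)|² = ν(D) ∫_D |φ(n(x) g)|² dν ≤ ν(D)² C²`.  Constant: `ν(D)² (C₁² + C₁'²) / 2`.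
-/

set_option autoImplicit false
set_option linter.style.haveILetI false

open AutomorphicForm IsDedekindDomain NumberField Filter Topology MeasureTheory
open scoped ComplexConjugate ENNReal

noncomputable section

namespace Fermat.Agent.LT.T7.H189

open Fermat.Agent.LT.H556 Fermat.Agent.LT.H556.A0 Fermat.Agent.LT.T7 Fermat.Agent.LT.T7.Rigid
open Fermat.Agent.LT.T7.H57

attribute [local instance] Fermat.Agent.LT.T5.instMeasurableSpaceG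

variable (K : Type) [Field K] [NumberField K]

/-- The period of `|φ|²` is bounded by `C² ν(D)`. -/
theorem norm_per_le189 {m : MeasurableSpace (Adl K)} (ν : Measure (Adl K)) (D : Set (Adl K))
    (hfin : ν D < ⊤) (φ : G K → ℂ) (C : ℝ) (hb : ∀ g : G K, ‖φ g‖ ≤ C) (g : G K) :
    ‖per57 K ν D φ φ g‖ ≤ C ^ 2 * (ν D).toReal := by
  unfold per57
  refine norm_setIntegral_le_of_norm_le_const hfin fun x _ => ?_
  rw [norm_mul, RCLike.norm_conj, pow_two]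
  have h0 : 0 ≤ ‖φ (Fermat.Agent.LT.T3.unip K x * g)‖ := norm_nonneg _
  exact mul_le_mul (hb _) (hb _) h0 (h0.trans (hb _))

/-- The diagonal case of Parseval: `∑_α |W(torK α g)|² ≤ ν(D)² C²`. -/
theorem diag_parseval189 (hP : ParsevalC57 K) :
    letI : MeasurableSpace (Adl K) := borel (Adl K)
    ∀ ψ : AddChar (Adl K) Circle, Fermat.Agent.LT.T3.IsStdChar K ψ →
      Fermat.Agent.LT.T3.IsNonDeg K ψ →
    ∀ (ν : Measure (Adl K)) (D : Set (Adl K)), ν.IsAddHaarMeasure → MeasurableSet D →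
      IsAddFundamentalDomain ((algebraMap K (Adl K)).toAddMonoidHom.range) D ν → ν D < ⊤ →
    ∀ (φ : G K → ℂ) (C : ℝ), Continuous φ → (∀ g : G K, ‖φ g‖ ≤ C) → IsLeftInv57 K φ →
      IsCuspidalFn φ → ∀ g : G K,
        Summable (fun α : Kˣ => ‖whit ψ ν D φ (Fermat.Agent.LT.T3.torK K α * g)‖ ^ 2) ∧
        ∑' α : Kˣ, ‖whit ψ ν D φ (Fermat.Agent.LT.T3.torK K α * g)‖ ^ 2
          ≤ (ν D).toReal * (C ^ 2 * (ν D).toReal) := by
  letI : MeasurableSpace (Adl K) := borel (Adl K)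
  intro ψ hψ hnd ν D hν hD hfd hfin φ C hc hb hi hcu g
  obtain ⟨hs, he⟩ := hP ψ hψ hnd ν D hν hD hfd hfin φ φ hc ⟨C, hb⟩ hi hcu hc ⟨C, hb⟩ hi hcu g
  have hterm : ∀ α : Kˣ, ww57 K ψ ν D φ φ (Fermat.Agent.LT.T3.torK K α * g)
      = ((‖whit ψ ν D φ (Fermat.Agent.LT.T3.torK K α * g)‖ ^ 2 : ℝ) : ℂ) := by
    intro α
    unfold ww57
    rw [Complex.mul_conj, Complex.normSq_eq_norm_sq]
  simp_rw [hterm] at hs he
  have hs' : Summable (fun α : Kˣ => ‖whit ψ ν D φ (Fermat.Agent.LT.T3.torK K α * g)‖ ^ 2) :=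
    Complex.summable_ofReal.mp hs
  refine ⟨hs', ?_⟩
  rw [← Complex.ofReal_tsum] at he
  have hnn : 0 ≤ ∑' α : Kˣ, ‖whit ψ ν D φ (Fermat.Agent.LT.T3.torK K α * g)‖ ^ 2 :=
    tsum_nonneg fun α => by positivity
  have h1 : ∑' α : Kˣ, ‖whit ψ ν D φ (Fermat.Agent.LT.T3.torK K α * g)‖ ^ 2
      = ‖(((ν D).toReal : ℝ) : ℂ) * per57 K ν D φ φ g‖ := by
    rw [he, Complex.norm_real, Real.norm_of_nonneg hnn]
  rw [h1, norm_mul, Complex.norm_real, Real.norm_of_nonneg ENNReal.toReal_nonneg]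
  exact mul_le_mul_of_nonneg_left (norm_per_le189 K ν D hfin φ C hb g) ENNReal.toReal_nonneg

/-- **T7.14.6a-F.2 `ParsBddC57`** from `ParsevalC57`. -/
theorem parsBddC_of_parseval189 (hP : ParsevalC57 K) : ParsBddC57 K := by
  letI : MeasurableSpace (Adl K) := borel (Adl K)
  intro ψ hψ hnd ν D hν hD hfd hfin φ₁ φ₁' hc₁ hb₁ hi₁ hcu₁ hc₁' hb₁' hi₁' hcu₁'
  obtain ⟨C₁, hC₁⟩ := hb₁
  obtain ⟨C₁', hC₁'⟩ := hb₁'
  refine ⟨((ν D).toReal * (C₁ ^ 2 * (ν D).toReal)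
    + (ν D).toReal * (C₁' ^ 2 * (ν D).toReal)) / 2, fun g => ?_⟩
  obtain ⟨hs₁, hle₁⟩ :=
    diag_parseval189 K hP ψ hψ hnd ν D hν hD hfd hfin φ₁ C₁ hc₁ hC₁ hi₁ hcu₁ g
  obtain ⟨hs₁', hle₁'⟩ :=
    diag_parseval189 K hP ψ hψ hnd ν D hν hD hfd hfin φ₁' C₁' hc₁' hC₁' hi₁' hcu₁' g
  have hpt : ∀ α : Kˣ, ‖ww57 K ψ ν D φ₁ φ₁' (Fermat.Agent.LT.T3.torK K α * g)‖
      ≤ (‖whit ψ ν D φ₁ (Fermat.Agent.LT.T3.torK K α * g)‖ ^ 2
        + ‖whit ψ ν D φ₁' (Fermat.Agent.LT.T3.torK K α * g)‖ ^ 2) / 2 := by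
    intro α
    unfold ww57
    rw [norm_mul, RCLike.norm_conj]
    nlinarith [sq_nonneg (‖whit ψ ν D φ₁ (Fermat.Agent.LT.T3.torK K α * g)‖
      - ‖whit ψ ν D φ₁' (Fermat.Agent.LT.T3.torK K α * g)‖)]
  have hsum : Summable (fun α : Kˣ =>
      (‖whit ψ ν D φ₁ (Fermat.Agent.LT.T3.torK K α * g)‖ ^ 2
        + ‖whit ψ ν D φ₁' (Fermat.Agent.LT.T3.torK K α * g)‖ ^ 2) / 2) :=
    (hs₁.add hs₁').div_const 2
  have hsw : Summable (fun α : Kˣ =>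
      ‖ww57 K ψ ν D φ₁ φ₁' (Fermat.Agent.LT.T3.torK K α * g)‖) :=
    Summable.of_nonneg_of_le (fun α => norm_nonneg _) hpt hsum
  calc ∑' α : Kˣ, ‖ww57 K ψ ν D φ₁ φ₁' (Fermat.Agent.LT.T3.torK K α * g)‖
      ≤ ∑' α : Kˣ, (‖whit ψ ν D φ₁ (Fermat.Agent.LT.T3.torK K α * g)‖ ^ 2
        + ‖whit ψ ν D φ₁' (Fermat.Agent.LT.T3.torK K α * g)‖ ^ 2) / 2 :=
        hsw.tsum_le_tsum hpt hsum
    _ = (∑' α : Kˣ, ‖whit ψ ν D φ₁ (Fermat.Agent.LT.T3.torK K α * g)‖ ^ 2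
        + ∑' α : Kˣ, ‖whit ψ ν D φ₁' (Fermat.Agent.LT.T3.torK K α * g)‖ ^ 2) / 2 := by
        rw [tsum_div_const, hs₁.tsum_add hs₁']
    _ ≤ ((ν D).toReal * (C₁ ^ 2 * (ν D).toReal)
        + (ν D).toReal * (C₁' ^ 2 * (ν D).toReal)) / 2 := by
        linarith

/-- VERBATIM check. -/
example (hP : ParsevalC57 K) : Fermat.Agent.LT.T7.H57.ParsBddC57 K :=
  parsBddC_of_parseval189 K hP

end Fermat.Agent.LT.T7.H189

end
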